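/-
S26-track, chapter NORM (helper50), brick N3a: the scheme side of norm descent.

For a morphism `σ : W ⟶ A` of integral schemes mapping the generic point to the generic point
we construct the embedding of function fields `K(A) → K(W)`, show that it maps
`O_{A,σ w}` into `O_{W,w}`, and (the key point) that for `σ` satisfying the existence part of
the valuative criterion every valuation subring of `K(W)` containing the image of `O_{A,x}`
has a centre `w` on `W` with `σ w ⤳ x`.
-/
import Fermat.Agent.JAC.Div2.Stalk69
import Fermat.Agent.JAC.Norm.NormUnit50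

set_option autoImplicit false

universe u

open AlgebraicGeometry CategoryTheory TopologicalSpace
open Fermat.Agent.JAC.Div2.Stalk69

namespace Fermat.Agent.JAC.Norm.Centre50

variable {W A : Scheme.{u}} [IsIntegral W] [IsIntegral A] (σ : W ⟶ A)

/-- A dominant morphism of integral schemes maps the generic point to (a point specializing
to) the generic point. -/
theorem specializes_genericPoint_of_isDominant [IsDominant σ] :
    σ (genericPoint W) ⤳ genericPoint A := by
  have h1 : IsGenericPoint (σ (genericPoint W)) (closure (Set.range σ)) := by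
    have := (genericPoint_spec W).image σ.continuous
    rwa [Set.image_univ] at this
  have h2 : closure (Set.range σ) = Set.univ := (IsDominant.denseRange (f := σ)).closure_eq
  rw [h2] at h1
  exact specializes_of_eq (h1.eq (genericPoint_spec A))

section

variable (hdom : σ (genericPoint W) ⤳ genericPoint A)

/-- The ring map `O_{A,x} → K(W)` induced by `σ`. -/
noncomputable def stalkToFunctionField (x : A) : A.presheaf.stalk x →+* W.functionField :=
  (A.presheaf.stalkSpecializes (hdom.trans ((genericPoint_spec A).specializes trivial)) ≫
    σ.stalkMap (genericPoint W)).hom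

/-- The embedding of function fields `K(A) → K(W)` induced by `σ`. -/
noncomputable def functionFieldMap : A.functionField →+* W.functionField :=
  stalkToFunctionField σ hdom (genericPoint A)

theorem stalkToFunctionField_eq (x : A) (t : A.presheaf.stalk x) :
    stalkToFunctionField σ hdom x t =
      functionFieldMap σ hdom (algebraMap (A.presheaf.stalk x) A.functionField t) := by
  change _ = (σ.stalkMap (genericPoint W)).hom ((A.presheaf.stalkSpecializes _).hom
    ((A.presheaf.stalkSpecializes _).hom t))
  rw [← CommRingCat.comp_apply (A.presheaf.stalkSpecializes _) (A.presheaf.stalkSpecializes _),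
    TopCat.Presheaf.stalkSpecializes_comp]
  rfl

/-- `σ^#` on stalks is compatible with the embedding of function fields. -/
theorem functionFieldMap_algebraMap (w : W) (t : A.presheaf.stalk (σ w)) :
    functionFieldMap σ hdom (algebraMap (A.presheaf.stalk (σ w)) A.functionField t) =
      algebraMap (W.presheaf.stalk w) W.functionField (σ.stalkMap w t) := by
  rw [← stalkToFunctionField_eq]
  exact Scheme.Hom.stalkSpecializes_stalkMap_apply σ (genericPoint W) w
    ((genericPoint_spec W).specializes trivial) t

/-- `σ^#` maps `O_{A,σ w}` into `O_{W,w}`. -/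
theorem map_stalkRing_le (w : W) :
    (stalkRing A (σ w)).map (functionFieldMap σ hdom) ≤ stalkRing W w := by
  rintro _ ⟨_, ⟨t, rfl⟩, rfl⟩
  exact ⟨σ.stalkMap w t, (functionFieldMap_algebraMap σ hdom w t).symm⟩

set_option backward.isDefEq.respectTransparency.types false in
/-- **Centres.** If `σ` satisfies the existence part of the valuative criterion
(e.g. `σ` universally closed), every valuation subring `𝒪` of `K(W)` containing the image of
`O_{A,x}` contains the local ring of a point `w` of `W` with `σ w ⤳ x`. -/
theorem exists_centre (hσ : ValuativeCriterion.Existence σ) (x : A)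
    (𝒪 : ValuationSubring W.functionField)
    (h𝒪 : ∀ t : A.presheaf.stalk x, stalkToFunctionField σ hdom x t ∈ 𝒪) :
    ∃ w : W, stalkRing W w ≤ 𝒪.toSubring ∧ σ w ⤳ x := by
  let ψ : A.presheaf.stalk x ⟶ CommRingCat.of 𝒪 :=
    CommRingCat.ofHom ((stalkToFunctionField σ hdom x).codRestrict 𝒪.toSubring h𝒪)
  have hx : σ (genericPoint W) ⤳ x := hdom.trans ((genericPoint_spec A).specializes trivial)
  have w : W.fromSpecStalk (genericPoint W) ≫ σ =
      Spec.map (CommRingCat.ofHom (algebraMap 𝒪 W.functionField)) ≫
        Spec.map ψ ≫ A.fromSpecStalk x := by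
    rw [← Scheme.SpecMap_stalkMap_fromSpecStalk, ← Scheme.SpecMap_stalkSpecializes_fromSpecStalk hx]
    simp_rw [← Spec.map_comp_assoc]
    rfl
  obtain ⟨l, hl₁, hl₂⟩ := (hσ { R := 𝒪, K := W.functionField, commSq := ⟨w⟩, .. }).exists_lift
  dsimp only at hl₁ hl₂
  refine ⟨l (IsLocalRing.closedPoint 𝒪), ?_, ?_⟩
  · -- the local ring of the centre is contained in `𝒪`
    have hgen : genericPoint W ⤳ l (IsLocalRing.closedPoint 𝒪) :=
      (genericPoint_spec W).specializes trivial
    have e1 : Spec.map (Scheme.stalkClosedPointTo l ≫
          CommRingCat.ofHom (algebraMap 𝒪 W.functionField)) ≫ W.fromSpecStalk _ =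
        Spec.map (W.presheaf.stalkSpecializes hgen) ≫ W.fromSpecStalk _ := by
      rw [Scheme.SpecMap_stalkSpecializes_fromSpecStalk, Spec.map_comp_assoc,
        Scheme.Spec_stalkClosedPointTo_fromSpecStalk, hl₁]
    have e2 := Spec.map_injective ((cancel_mono _).mp e1)
    rintro _ ⟨t, rfl⟩
    have e3 : algebraMap (W.presheaf.stalk (l (IsLocalRing.closedPoint 𝒪))) W.functionField t =
        (W.presheaf.stalkSpecializes hgen).hom t := rfl
    rw [e3, ← e2]
    exact ((Scheme.stalkClosedPointTo l).hom t).2
  · rw [← Scheme.Hom.comp_apply, hl₂]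
    have : (Spec.map ψ ≫ A.fromSpecStalk x) (IsLocalRing.closedPoint 𝒪) ∈
        Set.range (A.fromSpecStalk x) := ⟨_, rfl⟩
    rwa [Scheme.range_fromSpecStalk] at this

end

end Fermat.Agent.JAC.Norm.Centre50
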