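/-
S26-track, chapter NORM (helper50), brick N3: norm descent of a principal relation for
Cartier divisors in field form (helper69's `CaDiv69`).

`σ : W ⟶ A` a morphism of integral schemes, generic point to generic point, satisfying the
existence part of the valuative criterion (e.g. proper), `A` normal.  If `D` is a Cartier
divisor on `A` whose pullback to `W` is principal (`= - div h`), then `[K(W) : K(A)] • D` is
principal on `A` (`= - div (N h)`).
-/
import Fermat.Agent.JAC.Div2.CaDiv69
import Fermat.Agent.JAC.Norm.Centre50

set_option autoImplicit false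

universe u

open AlgebraicGeometry CategoryTheory TopologicalSpace
open Fermat.Agent.JAC.Div2.Stalk69 Fermat.Agent.JAC.Div2.CaDiv69
open Fermat.Agent.JAC.Norm.NormUnit50 Fermat.Agent.JAC.Norm.Centre50

namespace Fermat.Agent.JAC.Norm.Descent50

/-- A normal integral scheme has local rings integrally closed in the function field
(subring form). -/
theorem mem_stalkRing_of_isIntegral {A : Scheme.{u}} [IsIntegral A] (x : A)
    [IsIntegrallyClosed (A.presheaf.stalk x)] (z : A.functionField)
    (hz : IsIntegral (stalkRing A x) z) : z ∈ stalkRing A x := by
  have h1 : IsIntegral (A.presheaf.stalk x) z := isIntegral_of_isIntegral_range z hz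
  obtain ⟨y, hy⟩ := (IsIntegrallyClosed.isIntegral_iff (R := A.presheaf.stalk x)
    (K := A.functionField)).mp h1
  exact ⟨y, hy⟩

variable {W A : Scheme.{u}} [IsIntegral W] [IsIntegral A] (σ : W ⟶ A)
  (hdom : σ (genericPoint W) ⤳ genericPoint A)

/-- The `K(A)`-algebra structure on `K(W)` induced by `σ`.  Not an instance. -/
@[reducible] noncomputable def functionFieldAlgebra : Algebra A.functionField W.functionField :=
  (functionFieldMap σ hdom).toAlgebra

/-- **N3, field form.**  Let `g x ∈ K(A)ˣ` be coherent local equations on `A` (a `CaDiv`), and
`h ∈ K(W)ˣ` such that `h * σ^*(g (σ w))` is a unit of `O_{W,w}` for all `w`.  Then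
`N(h) * g x ^ [K(W):K(A)]` is a unit of `O_{A,x}` for all `x`. -/
theorem norm_mul_pow_mem_stalkUnits (hσ : ValuativeCriterion.Existence σ)
    [∀ x : A, IsIntegrallyClosed (A.presheaf.stalk x)]
    (D : CaDiv A) (h : W.functionFieldˣ)
    (hh : ∀ w : W, h * Units.map (functionFieldMap σ hdom).toMonoidHom (D.eq (σ w)) ∈
      stalkUnits W w) (x : A) :
    letI := functionFieldAlgebra σ hdom
    Units.map (Algebra.norm A.functionField : W.functionField →* A.functionField) h *
      D.eq x ^ Module.finrank A.functionField W.functionField ∈ stalkUnits A x := by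
  let _ := functionFieldAlgebra σ hdom
  have halg : ∀ a : A.functionField, algebraMap A.functionField W.functionField a =
      functionFieldMap σ hdom a := fun _ => rfl
  have key := norm_mul_pow_mem_and_inv_mem (E := A.functionField) (F := W.functionField)
    (fun w : W => σ w) (stalkRing A) (stalkRing W)
    (fun x z hz => mem_stalkRing_of_isIntegral x z hz)
    (fun w => map_stalkRing_le σ hdom w)
    (fun x' x => x' ⤳ x)
    (fun x 𝒪 h𝒪 => exists_centre σ hdom hσ x 𝒪 fun t => by
      rw [stalkToFunctionField_eq]
      exact h𝒪 ⟨_, ⟨t, rfl⟩, rfl⟩)
    (fun x => (D.eq x : A.functionField)) (fun x => (D.eq x).ne_zero)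
    (fun x' x hx => by
      obtain ⟨V, hxV, hV⟩ := D.coh x
      have hx' : x' ∈ V := hx.mem_open V.isOpen hxV
      have hu := hV x' hx'
      refine ⟨?_, ?_⟩
      · have := (inv_mem hu).1
        simpa using this
      · have := hu.1
        simpa using this)
    (h : W.functionField)
    (fun w => by
      have hu := hh w
      refine ⟨?_, ?_⟩
      · have := hu.1
        rw [halg]
        simpa using this
      · have := (inv_mem hu).1
        rw [halg]
        simpa using this)
    x
  refine ⟨?_, ?_⟩
  · simpa using key.1
  · have := key.2
    simpa using this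

/-- **N3, divisor form.**  If the pullback of `D` to `W` is principal then
`[K(W):K(A)] • D` is linearly equivalent to `0` on `A`. -/
theorem linEquiv_zero_of_pullback_principal (hσ : ValuativeCriterion.Existence σ)
    [∀ x : A, IsIntegrallyClosed (A.presheaf.stalk x)]
    (D : CaDiv A) (h : W.functionFieldˣ)
    (hh : ∀ w : W, h * Units.map (functionFieldMap σ hdom).toMonoidHom (D.eq (σ w)) ∈
      stalkUnits W w) :
    letI := functionFieldAlgebra σ hdom
    CaDiv.LinEquiv (Module.finrank A.functionField W.functionField • D) 0 := by
  let _ := functionFieldAlgebra σ hdom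
  refine ⟨(Units.map (Algebra.norm A.functionField :
    W.functionField →* A.functionField) h)⁻¹, fun x => ?_⟩
  have := norm_mul_pow_mem_stalkUnits σ hdom hσ D h hh x
  simp only [CaDiv.eq_nsmul, CaDiv.eq_add, CaDiv.eq_zero, CaDiv.eq_principal, one_mul,
    div_inv_eq_mul]
  rwa [mul_comm]

omit [IsIntegral W] [IsIntegral A] in
theorem valuativeExistence_of_universallyClosed [UniversallyClosed σ] :
    ValuativeCriterion.Existence σ := by
  have h : UniversallyClosed σ := inferInstance
  rw [UniversallyClosed.eq_valuativeCriterion] at h
  exact h.1

omit [IsIntegral W] [IsIntegral A] in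
/-- A morphism `σ : W ⟶ A` over a base with `W` universally closed and `A` separated over the
base satisfies the existence part of the valuative criterion. -/
theorem valuativeExistence_of_comp {S : Scheme.{u}} (a : A ⟶ S) [UniversallyClosed (σ ≫ a)]
    [IsSeparated a] : ValuativeCriterion.Existence σ :=
  have : UniversallyClosed σ := UniversallyClosed.of_comp_of_isSeparated σ a
  valuativeExistence_of_universallyClosed σ

/-- **N3 for a dominant universally closed morphism** (e.g. a proper surjective morphism)
onto a normal integral scheme. -/
theorem linEquiv_zero_of_pullback_principal' [IsDominant σ] [UniversallyClosed σ]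
    [∀ x : A, IsIntegrallyClosed (A.presheaf.stalk x)]
    (D : CaDiv A) (h : W.functionFieldˣ)
    (hh : ∀ w : W, h * Units.map
      (functionFieldMap σ (specializes_genericPoint_of_isDominant σ)).toMonoidHom (D.eq (σ w)) ∈
      stalkUnits W w) :
    letI := functionFieldAlgebra σ (specializes_genericPoint_of_isDominant σ)
    CaDiv.LinEquiv (Module.finrank A.functionField W.functionField • D) 0 :=
  linEquiv_zero_of_pullback_principal σ _ (valuativeExistence_of_universallyClosed σ) D h hh

end Fermat.Agent.JAC.Norm.Descent50
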