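/-
S26-track, chapter NORM (helper50), bricks N1 + N2: descent of a principal relation along a
generically finite map by the field norm, in pure field/valuation-subring form.

Setting: `E ⊆ F` fields (think `E = K(A)`, `F = K(W)` for `s : W ⟶ A` dominant), a family of
subrings `OX x ⊆ E` (local rings of `A`), a family `OY w ⊆ F` (local rings of `W`).
If `R ⊆ E` is integrally closed and `u, u⁻¹` lie in every valuation subring of `F`
containing (the image of) `R`, then `N_{F/E}(u)` is a unit of `R`.  No noetherian hypothesis,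
no separability, no codimension one argument: an integrally closed subring of a field is the
intersection of the valuation subrings above it.
-/
import Mathlib

set_option autoImplicit false

namespace Fermat.Agent.JAC.Norm.NormUnit50

/-- Integrality over the range of the structure map is integrality over the ring. -/
theorem isIntegral_of_isIntegral_range {R F : Type*} [CommRing R] [Field F] [Algebra R F] (u : F)
    (h : IsIntegral (algebraMap R F).range u) : IsIntegral R u := by
  let f := algebraMap R F
  let _ : Algebra R f.range := f.rangeRestrict.toAlgebra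
  have : IsScalarTower R f.range F := IsScalarTower.of_algebraMap_eq fun _ => rfl
  have : Algebra.IsIntegral R f.range :=
    Algebra.isIntegral_of_surjective f.rangeRestrict_surjective
  exact isIntegral_trans (A := f.range) u h

/-- An element of a field lying in every valuation subring that contains the image of `R`
is integral over `R`. -/
theorem isIntegral_of_forall_valuationSubring {R F : Type*} [CommRing R] [Field F] [Algebra R F]
    (u : F) (h : ∀ 𝒪 : ValuationSubring F, (∀ r : R, algebraMap R F r ∈ 𝒪) → u ∈ 𝒪) :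
    IsIntegral R u := by
  apply isIntegral_of_isIntegral_range
  have key := iInf_valuationSubring_superset (K := F) (s := Set.range (algebraMap R F))
  have hu : u ∈ (⨅ V : {V : ValuationSubring F // Set.range (algebraMap R F) ⊆ V.toSubring},
      V.1.toSubring) := by
    rw [Subring.mem_iInf]
    rintro ⟨V, hV⟩
    exact h V fun r => hV ⟨r, rfl⟩
  rw [key] at hu
  have hc : Subring.closure (Set.range (algebraMap R F)) = (algebraMap R F).range := by
    rw [← RingHom.coe_range, Subring.closure_eq]
  rw [hc] at hu
  exact hu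

/-- Conversely an integral element lies in every valuation subring containing the image of
`R` (valuation rings are integrally closed). -/
theorem mem_valuationSubring_of_isIntegral {R F : Type*} [CommRing R] [Field F] [Algebra R F]
    {u : F} (hu : IsIntegral R u) (𝒪 : ValuationSubring F)
    (h𝒪 : ∀ r : R, algebraMap R F r ∈ 𝒪) : u ∈ 𝒪 := by
  obtain ⟨p, hp, hpu⟩ := hu
  have : IsIntegral 𝒪 u := by
    refine ⟨p.map ((algebraMap R F).codRestrict 𝒪.toSubring h𝒪), hp.map _, ?_⟩
    rw [Polynomial.eval₂_map]
    exact hpu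
  have h2 := (IsIntegrallyClosed.isIntegral_iff (R := 𝒪) (K := F)).mp this
  obtain ⟨y, hy⟩ := h2
  rw [← hy]
  exact y.2

/-- `Algebra.norm_inv` without the finiteness hypothesis (if `F / E` is not finite the norm is
constantly `1`). -/
theorem norm_inv_eq {E F : Type*} [Field E] [Field F] [Algebra E F] (u : F) :
    Algebra.norm E u⁻¹ = (Algebra.norm E u)⁻¹ := by
  by_cases hfin : Module.Finite E F
  · exact Algebra.norm_inv u
  · rw [Algebra.norm_eq_one_of_not_module_finite hfin, Algebra.norm_eq_one_of_not_module_finite hfin,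
      inv_one]

section General

variable {R E F : Type*} [CommRing R] [Field E] [Field F] [Algebra R E] [Algebra R F]
  [Algebra E F] [IsScalarTower R E F]

/-- **N1, general form.**  If `u` and `u⁻¹` lie in every valuation subring of `F` containing
the image of `R`, then `N_{F/E}(u)` and `N_{F/E}(u)⁻¹` are integral over `R`. -/
theorem isIntegral_norm_and_inv (u : F)
    (hu : ∀ 𝒪 : ValuationSubring F, (∀ r : R, algebraMap R F r ∈ 𝒪) → u ∈ 𝒪 ∧ u⁻¹ ∈ 𝒪) :
    IsIntegral R (Algebra.norm E u) ∧ IsIntegral R (Algebra.norm E u)⁻¹ := by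
  have h1 : IsIntegral R u := isIntegral_of_forall_valuationSubring u fun 𝒪 h => (hu 𝒪 h).1
  have h2 : IsIntegral R u⁻¹ := isIntegral_of_forall_valuationSubring _ fun 𝒪 h => (hu 𝒪 h).2
  refine ⟨Algebra.isIntegral_norm E h1, ?_⟩
  have := Algebra.isIntegral_norm E h2
  rwa [norm_inv_eq] at this

end General

section Subring

variable {E F : Type*} [Field E] [Field F] [Algebra E F]

/-- **N1, subring form.**  `R ⊆ E` integrally closed in `E`; if `u` and `u⁻¹` lie in every
valuation subring of `F` containing the image of `R` then `N_{F/E}(u)` and its inverse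
lie in `R`. -/
theorem norm_mem_and_inv_mem (R : Subring E) (hR : ∀ z : E, IsIntegral R z → z ∈ R) (u : F)
    (hu : ∀ 𝒪 : ValuationSubring F, R.map (algebraMap E F) ≤ 𝒪.toSubring → u ∈ 𝒪 ∧ u⁻¹ ∈ 𝒪) :
    Algebra.norm E u ∈ R ∧ (Algebra.norm E u)⁻¹ ∈ R := by
  have := isIntegral_norm_and_inv (R := R) (E := E) (F := F) u fun 𝒪 h𝒪 =>
    hu 𝒪 (by
      rintro _ ⟨r, hr, rfl⟩
      exact h𝒪 ⟨r, hr⟩)
  exact ⟨hR _ this.1, hR _ this.2⟩

/-- The converse direction of N1 (for completeness): if `u ∈ F` and `u⁻¹` are integral over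
`R` they lie in all valuation subrings above `R`. -/
theorem mem_and_inv_mem_of_isIntegral (R : Subring E) (u : F) (h1 : IsIntegral R u)
    (h2 : IsIntegral R u⁻¹) (𝒪 : ValuationSubring F)
    (h𝒪 : R.map (algebraMap E F) ≤ 𝒪.toSubring) : u ∈ 𝒪 ∧ u⁻¹ ∈ 𝒪 := by
  have h : ∀ r : R, algebraMap R F r ∈ 𝒪 := fun r => h𝒪 ⟨r, r.2, rfl⟩
  exact ⟨mem_valuationSubring_of_isIntegral h1 𝒪 h, mem_valuationSubring_of_isIntegral h2 𝒪 h⟩

end Subring

/-! ### N2: the abstract descent statement -/

section Descent

variable {E F : Type*} [Field E] [Field F] [Algebra E F]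
variable {X Y : Type*} (s : Y → X) (OX : X → Subring E) (OY : Y → Subring F)

/-- **N2.** Abstract norm descent.
* `OX x ⊆ E` (local rings of the target), integrally closed in `E`;
* `OY w ⊆ F` (local rings of the source), with `s^# : OX (s w) → OY w`;
* `gen x' x` is a relation ("`x'` is a generization of `x`") such that every valuation subring
  of `F` above `OX x` contains some `OY w` with `gen (s w) x` (existence of centres on the
  proper source, uniqueness of centres on the separated target);
* `g : X → E` is a system of local equations, coherent under generization;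
* `h ∈ F` has divisor `- s^* div(g)` on the source: `h * g (s w)` is a unit of `OY w` for all `w`.
Then `N(h) * g x ^ [F : E]` is a unit of `OX x` for all `x`:
`div (N h) = - [F : E] • div(g)` on the target. -/
theorem norm_mul_pow_mem_and_inv_mem
    (hic : ∀ x, ∀ z : E, IsIntegral (OX x) z → z ∈ OX x)
    (hmap : ∀ w, (OX (s w)).map (algebraMap E F) ≤ OY w)
    (gen : X → X → Prop)
    (hcentre : ∀ x (𝒪 : ValuationSubring F), (OX x).map (algebraMap E F) ≤ 𝒪.toSubring →
      ∃ w, OY w ≤ 𝒪.toSubring ∧ gen (s w) x)
    (g : X → E) (hg0 : ∀ x, g x ≠ 0)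
    (hgcoh : ∀ x' x, gen x' x → g x / g x' ∈ OX x' ∧ g x' / g x ∈ OX x')
    (h : F)
    (hh : ∀ w, h * algebraMap E F (g (s w)) ∈ OY w ∧ (h * algebraMap E F (g (s w)))⁻¹ ∈ OY w)
    (x : X) :
    Algebra.norm E h * g x ^ Module.finrank E F ∈ OX x ∧
      (Algebra.norm E h * g x ^ Module.finrank E F)⁻¹ ∈ OX x := by
  have key := norm_mem_and_inv_mem (F := F) (OX x) (hic x) (h * algebraMap E F (g x)) ?_
  · rwa [map_mul, Algebra.norm_algebraMap] at key
  intro 𝒪 h𝒪
  obtain ⟨w, hw, hgen⟩ := hcentre x 𝒪 h𝒪
  obtain ⟨hc1, hc2⟩ := hgcoh _ _ hgen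
  have hgw : algebraMap E F (g (s w)) ≠ 0 := by
    simpa using hg0 (s w)
  have hgx : algebraMap E F (g x) ≠ 0 := by
    simpa using hg0 x
  have e1 : h * algebraMap E F (g x) =
      (h * algebraMap E F (g (s w))) * algebraMap E F (g x / g (s w)) := by
    rw [map_div₀]; field_simp
  have e2 : (h * algebraMap E F (g x))⁻¹ =
      (h * algebraMap E F (g (s w)))⁻¹ * algebraMap E F (g (s w) / g x) := by
    rw [e1, map_div₀, map_div₀, mul_inv, inv_div]
  have m1 : algebraMap E F (g x / g (s w)) ∈ 𝒪 := hw (hmap w ⟨_, hc1, rfl⟩)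
  have m2 : algebraMap E F (g (s w) / g x) ∈ 𝒪 := hw (hmap w ⟨_, hc2, rfl⟩)
  refine ⟨?_, ?_⟩
  · rw [e1]; exact 𝒪.mul_mem _ _ (hw (hh w).1) m1
  · rw [e2]; exact 𝒪.mul_mem _ _ (hw (hh w).2) m2

end Descent

end Fermat.Agent.JAC.Norm.NormUnit50
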